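import Mathlib
import Fermat.Agent.S41.Spec.HK
import Fermat.Agent.S41.Spec.PD

/-!
# S41 GLUE, part 1 (helper41): reduction mod `p`, divisibility, linear structure of the operators
-/

set_option autoImplicit false

namespace Fermat.Agent.S41.H41

open CongruenceSubgroup Fermat.Agent.S29.H642 Fermat.Agent.S41.Spec
open scoped MatrixGroups

section Red

variable {n : ℕ}

/-- Reduction of coefficients mod `p`. -/
def red (p : ℕ) (φ : Additive (Gamma0 n) →+ ℤ) : Additive (Gamma0 n) →+ ZMod p :=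
  (Int.castAddHom (ZMod p)).comp φ

/-- Extension of coefficients to `ℂ`. -/
def toC (φ : Additive (Gamma0 n) →+ ℤ) : Additive (Gamma0 n) →+ ℂ :=
  (Int.castAddHom ℂ).comp φ

@[simp] theorem red_apply (p : ℕ) (φ : Additive (Gamma0 n) →+ ℤ) (γ : Additive (Gamma0 n)) :
    red p φ γ = ((φ γ : ℤ) : ZMod p) := rfl

@[simp] theorem toC_apply (φ : Additive (Gamma0 n) →+ ℤ) (γ : Additive (Gamma0 n)) :
    toC φ γ = ((φ γ : ℤ) : ℂ) := rfl

theorem red_add (p : ℕ) (φ ψ : Additive (Gamma0 n) →+ ℤ) : red p (φ + ψ) = red p φ + red p ψ := by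
  ext γ; simp

theorem red_sub (p : ℕ) (φ ψ : Additive (Gamma0 n) →+ ℤ) : red p (φ - ψ) = red p φ - red p ψ := by
  ext γ; simp

theorem red_zsmul (p : ℕ) (c : ℤ) (φ : Additive (Gamma0 n) →+ ℤ) :
    red p (c • φ) = (c : ZMod p) • red p φ := by
  ext γ; simp

theorem red_p_smul (p : ℕ) (φ : Additive (Gamma0 n) →+ ℤ) : red p ((p : ℤ) • φ) = 0 := by
  ext γ; simp

theorem toC_add (φ ψ : Additive (Gamma0 n) →+ ℤ) : toC (φ + ψ) = toC φ + toC ψ := by
  ext γ; simp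

theorem toC_zsmul (c : ℤ) (φ : Additive (Gamma0 n) →+ ℤ) : toC (c • φ) = c • toC φ := by
  ext γ; simp

theorem toC_injective : Function.Injective (toC : (Additive (Gamma0 n) →+ ℤ) → _) := by
  intro φ ψ h
  refine AddMonoidHom.ext fun γ => ?_
  have := DFunLike.congr_fun h γ
  rw [toC_apply, toC_apply] at this
  exact_mod_cast this

theorem isCuspidal_comp {A B : Type*} [AddCommGroup A] [AddCommGroup B] (π : A →+ B)
    {φ : Additive (Gamma0 n) →+ A} (h : IsCuspidal φ) : IsCuspidal (π.comp φ) := by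
  refine ⟨fun γ hγ => ?_, fun γ hγ => ?_⟩
  · show π (φ (Additive.ofMul γ)) = 0
    rw [h.1 γ hγ, map_zero]
  · show π (φ (Additive.ofMul γ)) = 0
    rw [h.2 γ hγ, map_zero]

theorem isCuspidal_red (p : ℕ) {φ : Additive (Gamma0 n) →+ ℤ} (h : IsCuspidal φ) :
    IsCuspidal (red p φ) := isCuspidal_comp _ h

theorem isCuspidal_toC {φ : Additive (Gamma0 n) →+ ℤ} (h : IsCuspidal φ) :
    IsCuspidal (toC φ) := isCuspidal_comp _ h

theorem isCuspidal_zero {A : Type*} [AddCommGroup A] :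
    IsCuspidal (0 : Additive (Gamma0 n) →+ A) := ⟨fun _ _ => rfl, fun _ _ => rfl⟩

theorem isCuspidal_add {A : Type*} [AddCommGroup A] {φ ψ : Additive (Gamma0 n) →+ A}
    (h : IsCuspidal φ) (h' : IsCuspidal ψ) : IsCuspidal (φ + ψ) := by
  refine ⟨fun γ hγ => ?_, fun γ hγ => ?_⟩
  · show φ (Additive.ofMul γ) + ψ (Additive.ofMul γ) = 0
    rw [h.1 γ hγ, h'.1 γ hγ, add_zero]
  · show φ (Additive.ofMul γ) + ψ (Additive.ofMul γ) = 0
    rw [h.2 γ hγ, h'.2 γ hγ, add_zero]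

/-- A class with values divisible by `p` is `p` times a class. -/
theorem exists_eq_smul_of_dvd {p : ℕ} (hp : p ≠ 0) (φ : Additive (Gamma0 n) →+ ℤ)
    (h : ∀ γ, (p : ℤ) ∣ φ γ) :
    ∃ z : Additive (Gamma0 n) →+ ℤ, φ = (p : ℤ) • z ∧ (IsCuspidal φ → IsCuspidal z) := by
  have hp' : (p : ℤ) ≠ 0 := by exact_mod_cast hp
  refine ⟨⟨⟨fun γ => φ γ / (p : ℤ), by simp⟩, fun γ δ => ?_⟩, ?_, ?_⟩
  · show φ (γ + δ) / (p : ℤ) = φ γ / (p : ℤ) + φ δ / (p : ℤ)
    rw [map_add, Int.add_ediv_of_dvd_left (h γ)]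
  · ext γ
    show φ γ = (p : ℤ) • (φ γ / (p : ℤ))
    rw [smul_eq_mul, Int.mul_ediv_cancel' (h γ)]
  · intro hc
    refine ⟨fun γ hγ => ?_, fun γ hγ => ?_⟩
    · show φ (Additive.ofMul γ) / (p : ℤ) = 0
      rw [hc.1 γ hγ, Int.zero_ediv]
    · show φ (Additive.ofMul γ) / (p : ℤ) = 0
      rw [hc.2 γ hγ, Int.zero_ediv]

theorem exists_eq_smul_of_red_eq_zero {p : ℕ} (hp : p ≠ 0) (φ : Additive (Gamma0 n) →+ ℤ)
    (h : red p φ = 0) :
    ∃ z : Additive (Gamma0 n) →+ ℤ, φ = (p : ℤ) • z ∧ (IsCuspidal φ → IsCuspidal z) := by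
  apply exists_eq_smul_of_dvd hp
  intro γ
  have := DFunLike.congr_fun h γ
  rw [red_apply, AddMonoidHom.zero_apply] at this
  exact (ZMod.intCast_zmod_eq_zero_iff_dvd _ _).mp this

theorem smul_left_injective_int {p : ℕ} (hp : p ≠ 0) {φ ψ : Additive (Gamma0 n) →+ ℤ}
    (h : (p : ℤ) • φ = (p : ℤ) • ψ) : φ = ψ := by
  refine AddMonoidHom.ext fun γ => ?_
  have := DFunLike.congr_fun h γ
  change (p : ℤ) • φ γ = (p : ℤ) • ψ γ at this
  rw [smul_eq_mul, smul_eq_mul] at this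
  exact mul_left_cancel₀ (by exact_mod_cast hp) this

end Red

section Hecke

variable {N l : ℕ} [Fact l.Prime] {A : Type*} [AddCommGroup A]

theorem heckeTransfer_zero (hl : ¬ l ∣ N) :
    heckeTransfer hl (0 : Additive (Gamma0 N) →+ A) = 0 := by
  have h := heckeTransfer_add hl (0 : Additive (Gamma0 N) →+ A) 0
  rw [add_zero] at h
  exact left_eq_add.mp h

/-- `T_l` as an additive map. -/
noncomputable def heckeAdd (hl : ¬ l ∣ N) (A : Type*) [AddCommGroup A] :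
    (Additive (Gamma0 N) →+ A) →+ (Additive (Gamma0 N) →+ A) :=
  AddMonoidHom.mk' (heckeTransfer hl) (heckeTransfer_add hl)

@[simp] theorem heckeAdd_apply (hl : ¬ l ∣ N) (φ : Additive (Gamma0 N) →+ A) :
    heckeAdd hl A φ = heckeTransfer hl φ := rfl

theorem heckeTransfer_zsmul (hl : ¬ l ∣ N) (c : ℤ) (φ : Additive (Gamma0 N) →+ A) :
    heckeTransfer hl (c • φ) = c • heckeTransfer hl φ :=
  map_zsmul (heckeAdd hl A) c φ

theorem heckeTransfer_sub (hl : ¬ l ∣ N) (φ ψ : Additive (Gamma0 N) →+ A) :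
    heckeTransfer hl (φ - ψ) = heckeTransfer hl φ - heckeTransfer hl ψ :=
  map_sub (heckeAdd hl A) φ ψ

theorem heckeTransfer_red (hl : ¬ l ∣ N) (p : ℕ) (φ : Additive (Gamma0 N) →+ ℤ) :
    heckeTransfer hl (red p φ) = red p (heckeTransfer hl φ) :=
  heckeTransfer_comp hl _ φ

theorem heckeTransfer_toC (hl : ¬ l ∣ N) (φ : Additive (Gamma0 N) →+ ℤ) :
    heckeTransfer hl (toC φ) = toC (heckeTransfer hl φ) :=
  heckeTransfer_comp hl _ φ

theorem heckeTransfer_smul_field {F : Type*} [Field F] (hl : ¬ l ∣ N) (c : F)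
    (φ : Additive (Gamma0 N) →+ F) :
    heckeTransfer hl (c • φ) = c • heckeTransfer hl φ := by
  have h := heckeTransfer_comp hl (AddMonoidHom.mulLeft c) φ
  have e1 : (AddMonoidHom.mulLeft c).comp φ = c • φ := by ext γ; simp
  have e2 : (AddMonoidHom.mulLeft c).comp (heckeTransfer hl φ) = c • heckeTransfer hl φ := by
    ext γ; simp
  rw [e1, e2] at h
  exact h

/-- `T_l` as a `ℂ`-linear endomorphism. -/
noncomputable def heckeLinC (hl : ¬ l ∣ N) :
    Module.End ℂ (Additive (Gamma0 N) →+ ℂ) where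
  toFun := heckeTransfer hl
  map_add' := heckeTransfer_add hl
  map_smul' c φ := heckeTransfer_smul_field hl c φ

@[simp] theorem heckeLinC_apply (hl : ¬ l ∣ N) (φ : Additive (Gamma0 N) →+ ℂ) :
    heckeLinC hl φ = heckeTransfer hl φ := rfl

end Hecke

end Fermat.Agent.S41.H41
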