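import Mathlib
import Fermat.Prelude.Def_FLTPrelim_ModularRep
import Fermat.Prelude.Def_FreyPackage_LevelRaising
import Fermat.Agent.S41.Spec.HK
import Fermat.Agent.S41.Spec.PD
import Fermat.Agent.S41.Spec.Occ
import Fermat.Agent.S41.Spec.Core
import Fermat.Agent.S41.H41.GlueBasic

/-!
# S41 GLUE, part 2 (helper41): the `q`-new integral class (application of CORE)
-/

set_option autoImplicit false

open WeierstrassCurve WeierstrassCurve.Affine WeierstrassCurve.Affine.Point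
open scoped CongruenceSubgroup MatrixGroups

namespace Fermat.Agent.S41.H41

open CongruenceSubgroup Fermat.Agent.S29.H642 Fermat.Agent.S41.Spec

section Maps

variable (N q : ℕ)

/-- `r₁` as an additive map. -/
def r₁Add (A : Type*) [AddCommGroup A] :
    (Additive (Gamma0 N) →+ A) →+ (Additive (Gamma0 (N * q)) →+ A) :=
  AddMonoidHom.mk' (r₁ N q) (fun _ _ => rfl)

/-- `r₂` as an additive map. -/
def r₂Add (A : Type*) [AddCommGroup A] :
    (Additive (Gamma0 N) →+ A) →+ (Additive (Gamma0 (N * q)) →+ A) :=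
  AddMonoidHom.mk' (r₂ N q) (fun _ _ => rfl)

@[simp] theorem r₁Add_apply {A : Type*} [AddCommGroup A] (φ : Additive (Gamma0 N) →+ A) :
    r₁Add N q A φ = r₁ N q φ := rfl

@[simp] theorem r₂Add_apply {A : Type*} [AddCommGroup A] (φ : Additive (Gamma0 N) →+ A) :
    r₂Add N q A φ = r₂ N q φ := rfl

theorem r₁_comp {A B : Type*} [AddCommGroup A] [AddCommGroup B] (π : A →+ B)
    (φ : Additive (Gamma0 N) →+ A) : r₁ N q (π.comp φ) = π.comp (r₁ N q φ) := rfl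

theorem r₂_comp {A B : Type*} [AddCommGroup A] [AddCommGroup B] (π : A →+ B)
    (φ : Additive (Gamma0 N) →+ A) : r₂ N q (π.comp φ) = π.comp (r₂ N q φ) := rfl

variable {N q}

/-- `t₁` as an additive map (given functoriality). -/
noncomputable def t₁Add (hFun : FunctorialityStatement.{0}) (A : Type) [AddCommGroup A] :
    (Additive (Gamma0 (N * q)) →+ A) →+ (Additive (Gamma0 N) →+ A) :=
  AddMonoidHom.mk' (t₁ N q) (fun ψ ψ' => ((hFun N q A A (AddMonoidHom.id A)).2.1 ψ ψ').1)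

/-- `t₂` as an additive map (given functoriality). -/
noncomputable def t₂Add (hFun : FunctorialityStatement.{0}) (A : Type) [AddCommGroup A] :
    (Additive (Gamma0 (N * q)) →+ A) →+ (Additive (Gamma0 N) →+ A) :=
  AddMonoidHom.mk' (t₂ N q) (fun ψ ψ' => ((hFun N q A A (AddMonoidHom.id A)).2.1 ψ ψ').2)

@[simp] theorem t₁Add_apply (hFun : FunctorialityStatement.{0}) {A : Type} [AddCommGroup A]
    (ψ : Additive (Gamma0 (N * q)) →+ A) : t₁Add hFun A ψ = t₁ N q ψ := rfl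

@[simp] theorem t₂Add_apply (hFun : FunctorialityStatement.{0}) {A : Type} [AddCommGroup A]
    (ψ : Additive (Gamma0 (N * q)) →+ A) : t₂Add hFun A ψ = t₂ N q ψ := rfl

theorem t₁_comp (hFun : FunctorialityStatement.{0}) {A B : Type} [AddCommGroup A] [AddCommGroup B]
    (π : A →+ B) (ψ : Additive (Gamma0 (N * q)) →+ A) :
    t₁ N q (π.comp ψ) = π.comp (t₁ N q ψ) := ((hFun N q A B π).2.2.2 ψ).1

theorem t₂_comp (hFun : FunctorialityStatement.{0}) {A B : Type} [AddCommGroup A] [AddCommGroup B]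
    (π : A →+ B) (ψ : Additive (Gamma0 (N * q)) →+ A) :
    t₂ N q (π.comp ψ) = π.comp (t₂ N q ψ) := ((hFun N q A B π).2.2.2 ψ).2

theorem t₁_zero (hFun : FunctorialityStatement.{0}) {A : Type} [AddCommGroup A] :
    t₁ N q (0 : Additive (Gamma0 (N * q)) →+ A) = 0 := map_zero (t₁Add hFun A)

theorem t₂_zero (hFun : FunctorialityStatement.{0}) {A : Type} [AddCommGroup A] :
    t₂ N q (0 : Additive (Gamma0 (N * q)) →+ A) = 0 := map_zero (t₂Add hFun A)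

theorem t₁_zsmul (hFun : FunctorialityStatement.{0}) {A : Type} [AddCommGroup A] (c : ℤ)
    (ψ : Additive (Gamma0 (N * q)) →+ A) : t₁ N q (c • ψ) = c • t₁ N q ψ :=
  map_zsmul (t₁Add hFun A) c ψ

theorem t₂_zsmul (hFun : FunctorialityStatement.{0}) {A : Type} [AddCommGroup A] (c : ℤ)
    (ψ : Additive (Gamma0 (N * q)) →+ A) : t₂ N q (c • ψ) = c • t₂ N q ψ :=
  map_zsmul (t₂Add hFun A) c ψ

theorem t₁_sub (hFun : FunctorialityStatement.{0}) {A : Type} [AddCommGroup A]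
    (ψ ψ' : Additive (Gamma0 (N * q)) →+ A) : t₁ N q (ψ - ψ') = t₁ N q ψ - t₁ N q ψ' :=
  map_sub (t₁Add hFun A) ψ ψ'

theorem t₂_sub (hFun : FunctorialityStatement.{0}) {A : Type} [AddCommGroup A]
    (ψ ψ' : Additive (Gamma0 (N * q)) →+ A) : t₂ N q (ψ - ψ') = t₂ N q ψ - t₂ N q ψ' :=
  map_sub (t₂Add hFun A) ψ ψ'

end Maps

section CuspMap

/-- Restriction of an additive map to the cuspidal submodules. -/
noncomputable def cuspMap {n m : ℕ}
    (f : (Additive (Gamma0 n) →+ ℤ) →+ (Additive (Gamma0 m) →+ ℤ))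
    (hf : ∀ x, IsCuspidal x → IsCuspidal (f x)) :
    cuspidalSubmodule ℤ n ℤ →ₗ[ℤ] cuspidalSubmodule ℤ m ℤ :=
  f.toIntLinearMap.restrict (fun x hx => hf x hx)

@[simp] theorem cuspMap_coe {n m : ℕ}
    (f : (Additive (Gamma0 n) →+ ℤ) →+ (Additive (Gamma0 m) →+ ℤ))
    (hf : ∀ x, IsCuspidal x → IsCuspidal (f x)) (x : cuspidalSubmodule ℤ n ℤ) :
    ((cuspMap f hf x : cuspidalSubmodule ℤ m ℤ) : Additive (Gamma0 m) →+ ℤ) = f x := rfl

theorem exists_eq_smul_cusp {n p : ℕ} (hp : p ≠ 0) (x : cuspidalSubmodule ℤ n ℤ)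
    (h : red p (x : Additive (Gamma0 n) →+ ℤ) = 0) : ∃ z : cuspidalSubmodule ℤ n ℤ, x = (p : ℤ) • z := by
  obtain ⟨z, hz, hzc⟩ := exists_eq_smul_of_red_eq_zero hp (x : Additive (Gamma0 n) →+ ℤ) h
  exact ⟨⟨z, hzc x.2⟩, Subtype.ext hz⟩

theorem red_eq_zero_of_eq_smul {n p : ℕ} {x z : Additive (Gamma0 n) →+ ℤ}
    (h : x = (p : ℤ) • z) : red p x = 0 := by
  rw [h, red_p_smul]

end CuspMap

section Main

/-- The index type of the Hecke operators used in CORE: good primes `l ∤ N q`, `l ≠ p`. -/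
abbrev GoodIdx (W : WeierstrassCurve ℤ) (N q p : ℕ) : Type :=
  {l : ℕ // l.Prime ∧ ¬ l ∣ N * q ∧ W.IsGoodPrimeFor l ∧ l ≠ p}

theorem not_dvd_left_of_not_dvd_mul {l N q : ℕ} (h : ¬ l ∣ N * q) : ¬ l ∣ N :=
  fun h' => h (Dvd.dvd.mul_right h' q)

theorem exists_new_class
    (hFun : FunctorialityStatement.{0}) (hRC : RestrictCuspStatement.{0})
    (hTC : TransferCuspStatement.{0}) (hHC : HeckeCuspStatement.{0})
    (hHR : HeckeRestrictStatement.{0}) (hHT : HeckeTransferStatement.{0})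
    (hTR : TransferRestrictStatement.{0}) (hTRH : TransferRestrictHeckeStatement.{0})
    (hComm : HeckeCommStatement.{0}) (hPD : PDHeckeStatement.{0}) (hLift : LiftStatement)
    (hFree : CuspFreeStatement) (hIH : IharaEigenStatement) (hOcc : OccStatement)
    (hCore : RibetCoreStatement)
    (E : WeierstrassCurve ℚ) [E.IsElliptic] {W : WeierstrassCurve ℤ} (hW : W.IsIntegralModelOf E)
    {p N q : ℕ} (hp : p.Prime) (hp2 : p ≠ 2) (hN : 0 < N) (hq : q.Prime) (hqN : ¬ q ∣ N)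
    (hqp : q ≠ p)
    (hirr : GaloisRepIsIrreducible (K := AlgebraicClosure ℚ) ℚ E p)
    (f : CuspForm (CongruenceSubgroup.Gamma0 N) 2) (𝔪 : Ideal (integralClosure ℤ ℂ))
    (hf : f.IsNormalizedEigenform) (hmax : 𝔪.IsMaximal) (hpm : (p : integralClosure ℤ ℂ) ∈ 𝔪)
    (hcong : ∀ ℓ : ℕ, ℓ.Prime → W.IsGoodPrimeFor ℓ → ¬ ℓ ∣ N → ℓ ≠ p →
      ∃ a : integralClosure ℤ ℂ, (a : ℂ) = ModularFormClass.qCoeff f ℓ ∧
        a - ((W.apOfModel ℓ : ℤ) : integralClosure ℤ ℂ) ∈ 𝔪)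
    (hLR : ∃ a : integralClosure ℤ ℂ, (a : ℂ) = ModularFormClass.qCoeff f q ∧
      a ^ 2 - ((q : integralClosure ℤ ℂ) + 1) ^ 2 ∈ 𝔪) :
    ∃ y : Additive (Gamma0 (N * q)) →+ ℤ, IsCuspidal y ∧ t₁ N q y = 0 ∧ t₂ N q y = 0 ∧
      (¬ ∃ z : Additive (Gamma0 (N * q)) →+ ℤ, y = (p : ℤ) • z) ∧
      ∀ (l : ℕ) [Fact l.Prime] (hl : ¬ l ∣ N * q), W.IsGoodPrimeFor l → l ≠ p →
        ∃ z : Additive (Gamma0 (N * q)) →+ ℤ, IsCuspidal z ∧
          heckeTransfer hl y - W.apOfModel l • y = (p : ℤ) • z := by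
  classical
  have : Fact p.Prime := ⟨hp⟩
  have : Fact q.Prime := ⟨hq⟩
  have hN0 : N ≠ 0 := hN.ne'
  have hNq0 : N * q ≠ 0 := Nat.mul_ne_zero hN0 hq.ne_zero
  have hp0 : p ≠ 0 := hp.ne_zero
  have : NeZero N := ⟨hN0⟩
  -- the lattices
  obtain ⟨hAfin, hAfree⟩ := hFree N hN0
  obtain ⟨hBfin, hBfree⟩ := hFree (N * q) hNq0
  -- the duality family
  obtain ⟨β, hβ, hβT⟩ := hPD (ZMod p)
  obtain ⟨hβadd, hβsmul, hβskew, hβnd, hβadj⟩ := hβ
  -- the index type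
  have hFact : ∀ l : GoodIdx W N q p, Fact l.1.Prime := fun l => ⟨l.2.1⟩
  have hlN : ∀ l : GoodIdx W N q p, ¬ l.1 ∣ N := fun l => not_dvd_left_of_not_dvd_mul l.2.2.1
  have hlNq : ∀ l : GoodIdx W N q p, ¬ l.1 ∣ N * q := fun l => l.2.2.1
  -- the operators
  let tA : GoodIdx W N q p → cuspidalSubmodule ℤ N ℤ →ₗ[ℤ] cuspidalSubmodule ℤ N ℤ :=
    fun l => cuspMap (heckeAdd (hlN l) ℤ) (fun x hx => hHC N l.1 (hlN l) ℤ x hx)
  let tB : GoodIdx W N q p →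
      cuspidalSubmodule ℤ (N * q) ℤ →ₗ[ℤ] cuspidalSubmodule ℤ (N * q) ℤ :=
    fun l => cuspMap (heckeAdd (hlNq l) ℤ) (fun x hx => hHC (N * q) l.1 (hlNq l) ℤ x hx)
  let T : cuspidalSubmodule ℤ N ℤ →ₗ[ℤ] cuspidalSubmodule ℤ N ℤ :=
    cuspMap (heckeAdd hqN ℤ) (fun x hx => hHC N q hqN ℤ x hx)
  let i₁ : cuspidalSubmodule ℤ N ℤ →ₗ[ℤ] cuspidalSubmodule ℤ (N * q) ℤ :=
    cuspMap (r₁Add N q ℤ) (fun x hx => (hRC N q ℤ x hx).1)
  let i₂ : cuspidalSubmodule ℤ N ℤ →ₗ[ℤ] cuspidalSubmodule ℤ (N * q) ℤ :=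
    cuspMap (r₂Add N q ℤ) (fun x hx => (hRC N q ℤ x hx).2)
  let j₁ : cuspidalSubmodule ℤ (N * q) ℤ →ₗ[ℤ] cuspidalSubmodule ℤ N ℤ :=
    cuspMap (t₁Add hFun ℤ) (fun x hx => (hTC N q ℤ x hx).1)
  let j₂ : cuspidalSubmodule ℤ (N * q) ℤ →ₗ[ℤ] cuspidalSubmodule ℤ N ℤ :=
    cuspMap (t₂Add hFun ℤ) (fun x hx => (hTC N q ℤ x hx).2)
  let βA : cuspidalSubmodule ℤ N ℤ → cuspidalSubmodule ℤ N ℤ → ZMod p :=
    fun x y => β N (red p x.1) (red p y.1)
  let βB : cuspidalSubmodule ℤ (N * q) ℤ → cuspidalSubmodule ℤ (N * q) ℤ → ZMod p :=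
    fun x y => β (N * q) (red p x.1) (red p y.1)
  -- OCC
  obtain ⟨xbar, μbar, hx0, hxc, hxeig, hμ, hxq⟩ :=
    hOcc W p N q hp hq hqN f 𝔪 hf hmax hpm hcong hLR
  obtain ⟨x, hxcusp, hxred⟩ := hLift N p hN0 xbar hxc
  have hxred' : red p x = xbar := hxred
  -- general facts
  have cuspA : ∀ x : cuspidalSubmodule ℤ N ℤ, IsCuspidal (red p x.1) :=
    fun x => isCuspidal_red p x.2
  have cuspB : ∀ y : cuspidalSubmodule ℤ (N * q) ℤ, IsCuspidal (red p y.1) :=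
    fun y => isCuspidal_red p y.2
  have hβaddR : ∀ n : ℕ, n ≠ 0 → ∀ x y y' : Additive (Gamma0 n) →+ ZMod p,
      IsCuspidal x → IsCuspidal y → IsCuspidal y' → β n x (y + y') = β n x y + β n x y' := by
    intro n hn x y y' hx hy hy'
    have h1 := hβskew n hn (y + y') x (isCuspidal_add hy hy') hx
    have h2 := hβskew n hn y x hy hx
    have h3 := hβskew n hn y' x hy' hx
    have h4 := hβadd n hn y y' x hy hy' hx
    rw [h1, h4, h2, h3]; ring
  have hnd : ∀ n : ℕ, n ≠ 0 → ∀ x : cuspidalSubmodule ℤ n ℤ,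
      (∀ y : cuspidalSubmodule ℤ n ℤ, β n (red p x.1) (red p y.1) = 0) →
      ∃ z : cuspidalSubmodule ℤ n ℤ, x = (p : ℤ) • z := by
    intro n hn x hx
    apply exists_eq_smul_cusp hp0
    apply hβnd n hn _ (isCuspidal_red p x.2)
    intro ybar hybar
    obtain ⟨y, hyc, hyred⟩ := hLift n p hn ybar hybar
    have := hx ⟨y, hyc⟩
    rw [← hyred]
    exact this
  set c : ℤ := (q : ℤ) + 1 with hc
  set μ : ℤ := (μbar.cast : ℤ) with hμdef
  have hμcast : ((μ : ℤ) : ZMod p) = μbar := by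
    rw [hμdef, ZMod.intCast_cast, ZMod.cast_id', id]
  -- the 23 hypotheses of CORE
  have H1 : ∀ l l' x, tA l (tA l' x) = tA l' (tA l x) := fun l l' x =>
    Subtype.ext (hComm N l.1 l'.1 (hlN l) (hlN l') ℤ x.1)
  have H2 : ∀ l l' y, tB l (tB l' y) = tB l' (tB l y) := fun l l' y =>
    Subtype.ext (hComm (N * q) l.1 l'.1 (hlNq l) (hlNq l') ℤ y.1)
  have H3 : ∀ l x, tB l (i₁ x) = i₁ (tA l x) := fun l x =>
    Subtype.ext (hHR N q l.1 (hlN l) (hlNq l) ℤ x.1).1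
  have H4 : ∀ l x, tB l (i₂ x) = i₂ (tA l x) := fun l x =>
    Subtype.ext (hHR N q l.1 (hlN l) (hlNq l) ℤ x.1).2
  have H5 : ∀ l y, tA l (j₁ y) = j₁ (tB l y) := fun l y =>
    Subtype.ext (hHT N q l.1 (hlN l) (hlNq l) hNq0 ℤ y.1).1
  have H6 : ∀ l y, tA l (j₂ y) = j₂ (tB l y) := fun l y =>
    Subtype.ext (hHT N q l.1 (hlN l) (hlNq l) hNq0 ℤ y.1).2
  have hcsmul : ∀ φ : Additive (Gamma0 N) →+ ℤ, (q + 1) • φ = c • φ := by
    intro φ
    rw [hc, ← natCast_zsmul]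
    push_cast
    rfl
  have H7 : ∀ x, j₁ (i₁ x) = c • x := fun x =>
    Subtype.ext ((hTR N q hN0 hq hqN ℤ x.1).1.trans (hcsmul x.1))
  have H8 : ∀ x, j₂ (i₂ x) = c • x := fun x =>
    Subtype.ext ((hTR N q hN0 hq hqN ℤ x.1).2.trans (hcsmul x.1))
  have H9 : ∀ x, j₁ (i₂ x) = T x := fun x =>
    Subtype.ext (hTRH N q hqN hN0 ℤ x.1).1
  have H10 : ∀ x, j₂ (i₁ x) = T x := fun x =>
    Subtype.ext (hTRH N q hqN hN0 ℤ x.1).2
  have H11 : ∀ x x' y, βA (x + x') y = βA x y + βA x' y := by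
    intro x x' y
    show β N (red p (x + x' : cuspidalSubmodule ℤ N ℤ).1) (red p y.1) = _
    rw [Submodule.coe_add, red_add]
    exact hβadd N hN0 _ _ _ (cuspA x) (cuspA x') (cuspA y)
  have H12 : ∀ x y y', βA x (y + y') = βA x y + βA x y' := by
    intro x y y'
    show β N (red p x.1) (red p (y + y' : cuspidalSubmodule ℤ N ℤ).1) = _
    rw [Submodule.coe_add, red_add]
    exact hβaddR N hN0 _ _ _ (cuspA x) (cuspA y) (cuspA y')
  have H13 : ∀ x x' y, βB (x + x') y = βB x y + βB x' y := by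
    intro x x' y
    show β (N * q) (red p (x + x' : cuspidalSubmodule ℤ (N * q) ℤ).1) (red p y.1) = _
    rw [Submodule.coe_add, red_add]
    exact hβadd (N * q) hNq0 _ _ _ (cuspB x) (cuspB x') (cuspB y)
  have H14 : ∀ x y y', βB x (y + y') = βB x y + βB x y' := by
    intro x y y'
    show β (N * q) (red p x.1) (red p (y + y' : cuspidalSubmodule ℤ (N * q) ℤ).1) = _
    rw [Submodule.coe_add, red_add]
    exact hβaddR (N * q) hNq0 _ _ _ (cuspB x) (cuspB y) (cuspB y')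
  have H15 : ∀ x, (∀ y, βA x y = 0) → ∃ z, x = (p : ℤ) • z := fun x hx => hnd N hN0 x hx
  have H16 : ∀ x, (∀ y, βB x y = 0) → ∃ z, x = (p : ℤ) • z := fun x hx => hnd (N * q) hNq0 x hx
  have H17 : ∀ l x y, βA (tA l x) y = βA x (tA l y) := by
    intro l x y
    show β N (red p (heckeTransfer (hlN l) x.1)) (red p y.1) =
      β N (red p x.1) (red p (heckeTransfer (hlN l) y.1))
    rw [← heckeTransfer_red, ← heckeTransfer_red]
    exact hβT N l.1 (hlN l) hN0 _ _ (cuspA x) (cuspA y)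
  have H18 : ∀ l x y, βB (tB l x) y = βB x (tB l y) := by
    intro l x y
    show β (N * q) (red p (heckeTransfer (hlNq l) x.1)) (red p y.1) =
      β (N * q) (red p x.1) (red p (heckeTransfer (hlNq l) y.1))
    rw [← heckeTransfer_red, ← heckeTransfer_red]
    exact hβT (N * q) l.1 (hlNq l) hNq0 _ _ (cuspB x) (cuspB y)
  have H19 : ∀ x y, βB (i₁ x) y = βA x (j₁ y) := by
    intro x y
    show β (N * q) (red p (r₁ N q x.1)) (red p y.1) = β N (red p x.1) (red p (t₁ N q y.1))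
    have h := (hβadj N q hN0 hq hqN (red p x.1) (red p y.1) (cuspA x) (cuspB y)).1
    rw [show red p (t₁ N q y.1) = t₁ N q (red p y.1) from (t₁_comp hFun _ _).symm]
    exact h
  have H20 : ∀ x y, βB (i₂ x) y = βA x (j₂ y) := by
    intro x y
    show β (N * q) (red p (r₂ N q x.1)) (red p y.1) = β N (red p x.1) (red p (t₂ N q y.1))
    have h := (hβadj N q hN0 hq hqN (red p x.1) (red p y.1) (cuspA x) (cuspB y)).2
    rw [show red p (t₂ N q y.1) = t₂ N q (red p y.1) from (t₂_comp hFun _ _).symm]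
    exact h
  let a : GoodIdx W N q p → ℤ := fun l => W.apOfModel l.1
  -- reduction of an eigen-relation
  have hredeig : ∀ (l : GoodIdx W N q p) (x : cuspidalSubmodule ℤ N ℤ),
      (∃ z, tA l x - a l • x = (p : ℤ) • z) →
      heckeTransfer (hlN l) (red p x.1) = ((W.apOfModel l.1 : ℤ) : ZMod p) • red p x.1 := by
    rintro l x ⟨z, hz⟩
    have h1 : heckeTransfer (hlN l) x.1 - W.apOfModel l.1 • x.1 = (p : ℤ) • z.1 :=
      congrArg Subtype.val hz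
    have h2 := congrArg (red p) h1
    rw [red_p_smul, red_sub, red_zsmul, sub_eq_zero, ← heckeTransfer_red] at h2
    exact h2
  have H21 : ∀ x₁ x₂ : cuspidalSubmodule ℤ N ℤ, (∃ z, i₁ x₁ + i₂ x₂ = (p : ℤ) • z) →
      (∀ l, ∃ z, tA l x₁ - a l • x₁ = (p : ℤ) • z) →
      (∀ l, ∃ z, tA l x₂ - a l • x₂ = (p : ℤ) • z) →
      (∃ z, x₁ = (p : ℤ) • z) ∧ (∃ z, x₂ = (p : ℤ) • z) := by
    rintro x₁ x₂ ⟨z, hz⟩ h₁ h₂
    have hr : r₁ N q (red p x₁.1) + r₂ N q (red p x₂.1) = 0 := by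
      have h1 : r₁ N q x₁.1 + r₂ N q x₂.1 = (p : ℤ) • z.1 := congrArg Subtype.val hz
      have h2 := congrArg (red p) h1
      rw [red_p_smul, red_add] at h2
      exact h2
    have hkey := hIH E W hW p N q hp hp2 hN0 hq hqN hqp hirr (red p x₁.1) (red p x₂.1)
      (cuspA x₁) (cuspA x₂) hr (by
        intro l inst hl hl' hgood hlp
        exact ⟨hredeig ⟨l, inst.out, hl', hgood, hlp⟩ x₁ (h₁ _),
          hredeig ⟨l, inst.out, hl', hgood, hlp⟩ x₂ (h₂ _)⟩)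
    exact ⟨exists_eq_smul_cusp hp0 x₁ hkey.1, exists_eq_smul_cusp hp0 x₂ hkey.2⟩
  have H22 : ∃ x : cuspidalSubmodule ℤ N ℤ, (¬ ∃ z, x = (p : ℤ) • z) ∧
      (∃ z, T x - μ • x = (p : ℤ) • z) ∧ ∀ l, ∃ z, tA l x - a l • x = (p : ℤ) • z := by
    refine ⟨⟨x, hxcusp⟩, ?_, ?_, ?_⟩
    · rintro ⟨z, hz⟩
      apply hx0
      rw [← hxred']
      exact red_eq_zero_of_eq_smul (congrArg Subtype.val hz)
    · apply exists_eq_smul_cusp hp0
      show red p (heckeTransfer hqN x - μ • x) = 0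
      rw [red_sub, red_zsmul, ← heckeTransfer_red, hxred', hμcast, sub_eq_zero]
      exact hxq
    · intro l
      apply exists_eq_smul_cusp hp0
      show red p (heckeTransfer (hlN l) x - W.apOfModel l.1 • x) = 0
      rw [red_sub, red_zsmul, ← heckeTransfer_red, hxred', sub_eq_zero]
      exact hxeig l.1 (hlN l) l.2.2.2.1 l.2.2.2.2
  have H23 : (p : ℤ) ∣ μ ^ 2 - c ^ 2 := by
    rw [← ZMod.intCast_zmod_eq_zero_iff_dvd]
    push_cast
    rw [hμcast, hμ, hc]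
    push_cast
    ring
  obtain ⟨y, hy1, hy2, hy3, hy4⟩ := hCore p (GoodIdx W N q p) (cuspidalSubmodule ℤ N ℤ)
    (cuspidalSubmodule ℤ (N * q) ℤ) tA tB T i₁ i₂ j₁ j₂ c μ a βA βB
    H1 H2 H3 H4 H5 H6 H7 H8 H9 H10 H11 H12 H13 H14 H15 H16 H17 H18 H19 H20 H21 H22 H23
  refine ⟨y.1, y.2, congrArg Subtype.val hy1, congrArg Subtype.val hy2, ?_, ?_⟩
  · rintro ⟨z, hz⟩
    apply hy3
    obtain ⟨z', hz', hzc⟩ := exists_eq_smul_of_dvd hp0 y.1 (fun γ => by
      rw [hz]; exact ⟨z γ, rfl⟩)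
    exact ⟨⟨z', hzc y.2⟩, Subtype.ext hz'⟩
  · intro l inst hl hgood hlp
    obtain ⟨z, hz⟩ := hy4 ⟨l, inst.out, hl, hgood, hlp⟩
    exact ⟨z.1, z.2, congrArg Subtype.val hz⟩

end Main

end Fermat.Agent.S41.H41
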